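import Fermat.Agent.S59.H240.Unip
import Fermat.Agent.S59.H899.ZModel
import Fermat.Agent.S05.Sq12.Inertia
import Fermat.Agent.S59.H127.Inputs

/-!
# S59 / CR-I (helper240): `UnipInput` for a semistable integral model

* `inertia_smul_sub_fixed_of_mult` : for `W : WeierstrassCurve ℤ` with `Δ ≠ 0`, a prime `ℓ ∤ c₄`,
  `ℓ ∤ m`, a place `A` of `ℚ̄` over `ℓ`, `σ τ` in the inertia group of `A` and `x ∈ E[m](ℚ̄)`:
  `τ • (σ • x - x) = σ • x - x`;
* `inertia_sub_one_sq_of_mult` : `σ • σ • x - 2 • σ • x + 1 • x = 0`;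
* `unipInput_of_semistable` : `H127.UnipInput p W` for a semistable `W` with `Δ ≠ 0`
  (the finite-level input of the field `unip` of `Arch.CurveRep`);
* `tateGaloisRep_isUnipotentOnInertiaAt_of_semistable` : the Tate module version.
-/

set_option autoImplicit false

namespace Fermat.Agent.S59.H240

open WeierstrassCurve WeierstrassCurve.Affine
open scoped WeierstrassCurve.Affine
open Fermat.Agent.S05
open Fermat.Agent.S59.H899

/-- **CR-I, finite level.**  At a prime `ℓ ∤ c₄` (good or multiplicative reduction), the inertia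
group acts unipotently on the torsion of order prime to `ℓ`: `(τ - 1)(σ - 1) = 0`. -/
theorem inertia_smul_sub_fixed_of_mult (W : WeierstrassCurve ℤ) (hΔ : W.Δ ≠ 0) {ℓ : ℕ}
    (hℓ : ℓ.Prime) (hc₄ : ¬ (ℓ : ℤ) ∣ W.c₄) {m : ℕ} (hm : ¬ ℓ ∣ m)
    (A : ValuationSubring QbarH) (hA : A.LiesOverPrime ℓ)
    (σ τ : GalQH) (hσ : σ ∈ A.inertiaSubgroupIn ℚ) (hτ : τ ∈ A.inertiaSubgroupIn ℚ)
    (x : (curveQbar W).Point) (hx : m • x = 0) : τ • (σ • x - x) = σ • x - x := by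
  have hW := integralCoeffs W A
  have hc : A.valuation (curveQbar W).c₄ = 1 := by
    rw [curveQbar_c₄]
    exact val_intCast_eq_one hA hℓ hc₄
  have hΔ' : (curveQbar W).Δ ≠ 0 := by
    rw [curveQbar_Δ]
    exact_mod_cast hΔ
  have hmv : A.valuation (m : QbarH) = 1 := val_natCast_eq_one hA hℓ hm
  exact smul_sub_fixed_of_mult (W' := (W.map (Int.castRingHom ℚ)).toAffine) (S := ℚ)
    two_ne_zero hW hc hΔ' σ τ
    (fun t ht => inertia_val_sub_lt_one hσ t ht)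
    (fun t => Sq12.valuation_apply_eq_of_mem_inertiaIn A hσ t)
    (fun t ht => inertia_val_sub_lt_one hτ t ht) (m : ℤ)
    (fun Q hQ h => C1b.eq_zero_of_inKer_of_zsmul_eq_zero hW m hmv Q hQ h) x
    (by rwa [natCast_zsmul])

/-- **CR-I, finite level**: `(σ - 1)² = 0` on the torsion of order prime to `ℓ`. -/
theorem inertia_sub_one_sq_of_mult (W : WeierstrassCurve ℤ) (hΔ : W.Δ ≠ 0) {ℓ : ℕ}
    (hℓ : ℓ.Prime) (hc₄ : ¬ (ℓ : ℤ) ∣ W.c₄) {m : ℕ} (hm : ¬ ℓ ∣ m)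
    (A : ValuationSubring QbarH) (hA : A.LiesOverPrime ℓ)
    (σ : GalQH) (hσ : σ ∈ A.inertiaSubgroupIn ℚ)
    (x : (curveQbar W).Point) (hx : m • x = 0) :
    σ • σ • x - (2 : ℤ) • σ • x + (1 : ℤ) • x = 0 := by
  have key := inertia_smul_sub_fixed_of_mult W hΔ hℓ hc₄ hm A hA σ σ hσ hσ x hx
  rw [smul_sub] at key
  have e2 : (2 : ℤ) • (σ • x) = σ • x + σ • x := by
    rw [show (2 : ℤ) = 1 + 1 from rfl, add_zsmul, one_zsmul]
  rw [one_zsmul, e2]
  have e : σ • σ • x - (σ • x + σ • x) + x = (σ • σ • x - σ • x) - (σ • x - x) := by abel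
  rw [e, key, sub_self]

/-- **CR-I = `UnipInput`** for a semistable integral model with `Δ ≠ 0`. -/
theorem unipInput_of_semistable (p : ℕ) (hp : p.Prime) (W : WeierstrassCurve ℤ) (hΔ : W.Δ ≠ 0)
    (hss : W.IsSemistableModel) : H127.UnipInput p W := by
  intro ℓ hℓ hbad hℓp A hA σ hσ n x hx
  have hc₄ : ¬ (ℓ : ℤ) ∣ W.c₄ := hss ℓ hℓ (not_not.mp hbad)
  have hm : ¬ ℓ ∣ p ^ n := fun h =>
    hℓp ((Nat.prime_dvd_prime_iff_eq hℓ hp).mp (hℓ.dvd_of_dvd_pow h))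
  exact inertia_sub_one_sq_of_mult W hΔ hℓ hc₄ hm A hA σ hσ x hx

end Fermat.Agent.S59.H240
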