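import Fermat.Agent.S59.H240.Node.Main
import Fermat.Agent.S05.GoodRed
import Fermat.Agent.S05.C1b

/-!
# S59 / CR-I (helper240): inertia is unipotent on the torsion at a prime of multiplicative
reduction (finite level, abstract form)

Setting of `Fermat.Agent.S05.GoodRed`: `W'` a Weierstrass curve over `R`, `K` an algebraically
closed field with a valuation `v`, `σ τ : K ≃ₐ[S] K` acting trivially on the residue field of `v`
(and `σ` preserving `v`).  If the base change of `W'` to `K` has `v`-integral coefficients,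
`v c₄ = 1` and `Δ ≠ 0`, and the kernel of reduction has no `n`-torsion, then for every
`n`-torsion point `P`

  `τ • (σ • P - P) = σ • P - P`       (`smul_sub_fixed_of_mult`),

in particular `(σ - 1)² P = 0`       (`sub_one_sq_of_mult`).

Proof: `P` and `σ P` have the same invariants `rad`, and their directions at the node agree
modulo the maximal ideal, hence `σ P - P ∈ E₀` by `sub_inE0`; a torsion point of `E₀` has
nonsingular reduction, hence is fixed by `τ` (`GoodRed.smul_eq_self_of_nonsingular_reduction`).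
-/

set_option autoImplicit false
set_option linter.unusedSectionVars false
set_option linter.unusedVariables false

namespace Fermat.Agent.S59.H240

open WeierstrassCurve WeierstrassCurve.Affine
open Fermat.Agent.S05.SameRed (IntegralCoeffs InKer)
open Fermat.Agent.S05

section galois

variable {R S K : Type*} [CommRing R] [CommRing S] [Field K] [DecidableEq K]
  [Algebra R S] [Algebra R K] [Algebra S K] [IsScalarTower R S K]
  {Γ₀ : Type*} [LinearOrderedCommGroupWithZero Γ₀]
  {W' : Affine R} {v : Valuation K Γ₀}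

omit [DecidableEq K] in
lemma algEquiv_algebraMap_fix (σ : K ≃ₐ[S] K) (r : R) :
    σ (algebraMap R K r) = algebraMap R K r := by
  rw [IsScalarTower.algebraMap_apply R S K, AlgEquiv.commutes]

omit [DecidableEq K] in
lemma apply_gX (σ : K ≃ₐ[S] K) (x y : K) :
    σ (gX (W'⁄K) x y) = gX (W'⁄K) (σ x) (σ y) := by
  simp only [gX, WeierstrassCurve.baseChange, WeierstrassCurve.map_a₁, WeierstrassCurve.map_a₂,
    WeierstrassCurve.map_a₄, map_sub, map_mul, map_add, map_pow, map_ofNat,
    algEquiv_algebraMap_fix]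

omit [DecidableEq K] in
lemma apply_gY (σ : K ≃ₐ[S] K) (x y : K) :
    σ (gY (W'⁄K) x y) = gY (W'⁄K) (σ x) (σ y) := by
  simp only [gY, WeierstrassCurve.baseChange, WeierstrassCurve.map_a₁, WeierstrassCurve.map_a₃,
    map_mul, map_add, map_ofNat, algEquiv_algebraMap_fix]

omit [DecidableEq K] in
lemma rad_apply (σ : K ≃ₐ[S] K) (hσv : ∀ t : K, v (σ t) = v t) (x y : K) :
    rad (W'⁄K) v (σ x) (σ y) = rad (W'⁄K) v x y := by
  unfold rad
  rw [← apply_gX, ← apply_gY, hσv, hσv]

omit [DecidableEq K] in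
/-- The directions of `(G, H)` and `(σ G, σ H)` agree modulo the maximal ideal. -/
lemma val_cross_lt (σ : K ≃ₐ[S] K) (hσ : ∀ t : K, v t ≤ 1 → v (σ t - t) < 1)
    (hσv : ∀ t : K, v (σ t) = v t) {G H : K} (h0 : G ≠ 0 ∨ H ≠ 0) :
    v (G * σ H - σ G * H) < max (v G) (v H) * max (v G) (v H) := by
  rcases le_total (v G) (v H) with hle | hle
  · have hH0 : H ≠ 0 := by
      rintro rfl
      rw [map_zero] at hle
      have hG : G = 0 := (map_eq_zero v).mp (le_antisymm hle zero_le)
      rcases h0 with h | h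
      · exact h hG
      · exact h rfl
    rw [max_eq_right hle]
    have hvH : 0 < v H := (Valuation.pos_iff v).mpr hH0
    obtain ⟨g, hg⟩ : ∃ g : K, g = G / H := ⟨_, rfl⟩
    have hgv : v g ≤ 1 := by rw [hg, map_div₀]; exact (div_le_one₀ hvH).mpr hle
    have hG : G = g * H := by rw [hg]; field_simp
    have e : G * σ H - σ G * H = -((σ g - g) * (H * σ H)) := by
      rw [hG, map_mul]; ring
    rw [e, Valuation.map_neg, map_mul, map_mul, hσv]
    exact mul_lt_of_lt_one_left (mul_pos hvH hvH) (hσ g hgv)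
  · have hG0 : G ≠ 0 := by
      rintro rfl
      rw [map_zero] at hle
      have hH : H = 0 := (map_eq_zero v).mp (le_antisymm hle zero_le)
      rcases h0 with h | h
      · exact h rfl
      · exact h hH
    rw [max_eq_left hle]
    have hvG : 0 < v G := (Valuation.pos_iff v).mpr hG0
    obtain ⟨g, hg⟩ : ∃ g : K, g = H / G := ⟨_, rfl⟩
    have hgv : v g ≤ 1 := by rw [hg, map_div₀]; exact (div_le_one₀ hvG).mpr hle
    have hH : H = g * G := by rw [hg]; field_simp
    have e : G * σ H - σ G * H = (σ g - g) * (G * σ G) := by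
      rw [hH, map_mul]; ring
    rw [e, map_mul, map_mul, hσv]
    exact mul_lt_of_lt_one_left (mul_pos hvG hvG) (hσ g hgv)

omit [DecidableEq K] in
lemma val_gX_le_one (hW : IntegralCoeffs (W'⁄K) v) {x y : K} (hx : v x ≤ 1) (hy : v y ≤ 1) :
    v (gX (W'⁄K) x y) ≤ 1 := by
  unfold gX
  refine vsub_le (vmul_le_one hW.a₁ hy) (vadd_le (vadd_le ?_ ?_) hW.a₄)
  · exact vmul_le_one vthree_le_one (vpow_le_one hx 2)
  · exact vmul_le_one (vmul_le_one vtwo_le_one hW.a₂) hx

omit [DecidableEq K] in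
lemma val_gY_le_one (hW : IntegralCoeffs (W'⁄K) v) {x y : K} (hx : v x ≤ 1) (hy : v y ≤ 1) :
    v (gY (W'⁄K) x y) ≤ 1 := by
  unfold gY
  exact vadd_le (vadd_le (vmul_le_one vtwo_le_one hy) (vmul_le_one hW.a₁ hx)) hW.a₃

/-- `σ P - P` lies in `E₀` for a torsion point `P`. -/
theorem smul_sub_inE0 [IsAlgClosed K] (h2 : (2 : K) ≠ 0)
    (hW : IntegralCoeffs (W'⁄K) v) (hc₄ : v (W'⁄K).c₄ = 1) (hΔ : (W'⁄K).Δ ≠ 0)
    (σ : K ≃ₐ[S] K) (hσ : ∀ t : K, v t ≤ 1 → v (σ t - t) < 1) (hσv : ∀ t : K, v (σ t) = v t)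
    (n : ℤ) (hC1 : ∀ Q : (W'⁄K).Point, InKer (W'⁄K) v Q → n • Q = 0 → Q = 0)
    (P : (W'⁄K).Point) (hP : n • P = 0) : InE0 (W'⁄K) v (σ • P - P) := by
  rcases P with _ | ⟨x, y, h⟩
  · have e : σ • (Point.zero : (W'⁄K).Point) - Point.zero = 0 := by
      change σ • (0 : (W'⁄K).Point) - 0 = 0
      rw [smul_zero, sub_zero]
    rw [e]
    exact inE0_zero _
  · have hx : v x ≤ 1 := by
      by_contra hx
      rw [not_le] at hx
      exact Point.some_ne_zero h (hC1 _ ((SameRed.inKer_some h).mpr hx) hP)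
    have hy : v y ≤ 1 := GoodRed.val_y_le_one hW h.1 hx
    have hGle := val_gX_le_one hW hx hy
    have hHle := val_gY_le_one hW hx hy
    by_cases hrad : rad (W'⁄K) v x y < 1
    · rw [GoodRed.smul_some]
      refine sub_inE0 h2 hW hc₄ hΔ h _ hx hy (by rw [hσv]; exact hx) hrad
        (rad_apply σ hσv x y) ?_
      rw [← apply_gX, ← apply_gY]
      refine val_cross_lt σ hσ hσv ?_
      -- the point is nonsingular
      have hns := (Affine.nonsingular_iff' x y).mp h
      by_contra hcon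
      rw [not_or, not_not, not_not] at hcon
      rcases hns.2 with h1 | h1
      · apply h1
        have := hcon.1
        unfold gX at this
        linear_combination this
      · apply h1
        have := hcon.2
        unfold gY at this
        linear_combination this
    · -- nonsingular reduction: `σ P = P`
      have hns : v (gX (W'⁄K) x y) = 1 ∨ v (gY (W'⁄K) x y) = 1 := by
        by_contra hcon
        rw [not_or] at hcon
        exact hrad (max_lt (lt_of_le_of_ne hGle hcon.1) (lt_of_le_of_ne hHle hcon.2))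
      have := GoodRed.smul_eq_self_of_nonsingular_reduction hW σ hσ n hC1 h hx hns hP
      rw [this, sub_self]
      exact inE0_zero _

/-- A torsion point of `E₀` is fixed by the inertia group. -/
theorem smul_eq_self_of_inE0 (hW : IntegralCoeffs (W'⁄K) v)
    (τ : K ≃ₐ[S] K) (hτ : ∀ t : K, v t ≤ 1 → v (τ t - t) < 1)
    (n : ℤ) (hC1 : ∀ Q : (W'⁄K).Point, InKer (W'⁄K) v Q → n • Q = 0 → Q = 0)
    (Q : (W'⁄K).Point) (hQ0 : InE0 (W'⁄K) v Q) (hQ : n • Q = 0) : τ • Q = Q := by
  rcases Q with _ | ⟨x, y, h⟩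
  · exact smul_zero τ
  · have hx : v x ≤ 1 := by
      by_contra hx
      rw [not_le] at hx
      exact Point.some_ne_zero h (hC1 _ ((SameRed.inKer_some h).mpr hx) hQ)
    rw [inE0_some] at hQ0
    exact GoodRed.smul_eq_self_of_nonsingular_reduction hW τ hτ n hC1 h hx
      (hQ0.resolve_left (not_lt.mpr hx)) hQ

/-- **CR-I, abstract form.**  At a place of multiplicative reduction, `(τ - 1)(σ - 1) = 0` on
the torsion prime to the residue characteristic, for `σ`, `τ` in the inertia group. -/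
theorem smul_sub_fixed_of_mult [IsAlgClosed K] (h2 : (2 : K) ≠ 0)
    (hW : IntegralCoeffs (W'⁄K) v) (hc₄ : v (W'⁄K).c₄ = 1) (hΔ : (W'⁄K).Δ ≠ 0)
    (σ τ : K ≃ₐ[S] K)
    (hσ : ∀ t : K, v t ≤ 1 → v (σ t - t) < 1) (hσv : ∀ t : K, v (σ t) = v t)
    (hτ : ∀ t : K, v t ≤ 1 → v (τ t - t) < 1)
    (n : ℤ) (hC1 : ∀ Q : (W'⁄K).Point, InKer (W'⁄K) v Q → n • Q = 0 → Q = 0)
    (P : (W'⁄K).Point) (hP : n • P = 0) : τ • (σ • P - P) = σ • P - P := by
  refine smul_eq_self_of_inE0 hW τ hτ n hC1 _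
    (smul_sub_inE0 h2 hW hc₄ hΔ σ hσ hσv n hC1 P hP) ?_
  rw [smul_sub, ← Point.algEquiv_smul_zsmul, hP, smul_zero, sub_zero]

/-- **CR-I, abstract form**: `(σ - 1)² = 0` on the torsion. -/
theorem sub_one_sq_of_mult [IsAlgClosed K] (h2 : (2 : K) ≠ 0)
    (hW : IntegralCoeffs (W'⁄K) v) (hc₄ : v (W'⁄K).c₄ = 1) (hΔ : (W'⁄K).Δ ≠ 0)
    (σ : K ≃ₐ[S] K)
    (hσ : ∀ t : K, v t ≤ 1 → v (σ t - t) < 1) (hσv : ∀ t : K, v (σ t) = v t)
    (n : ℤ) (hC1 : ∀ Q : (W'⁄K).Point, InKer (W'⁄K) v Q → n • Q = 0 → Q = 0)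
    (P : (W'⁄K).Point) (hP : n • P = 0) :
    σ • σ • P - (2 : ℤ) • σ • P + (1 : ℤ) • P = 0 := by
  have key := smul_sub_fixed_of_mult h2 hW hc₄ hΔ σ σ hσ hσv hσ n hC1 P hP
  rw [smul_sub] at key
  rw [one_smul, two_smul]
  have e : σ • σ • P - (σ • P + σ • P) + P = (σ • σ • P - σ • P) - (σ • P - P) := by abel
  rw [e, key, sub_self]

end galois

end Fermat.Agent.S59.H240
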