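import Fermat.Agent.S59.H240.UnipInput
import Fermat.Agent.S59.H127.AsmZp

/-!
# S59 / CR-I (helper240): the field `unip` of `Arch.CurveRep` over `ℤ_p`

`tate_isUnipotentOnInertiaAt_of_semistable` : for a semistable integral model `W` with `Δ ≠ 0`
the `p`-adic Tate representation `H127.tateGaloisRep (WQ W) cb` has unipotent inertia at every
bad prime `ℓ ≠ p`.
-/

set_option autoImplicit false

namespace Fermat.Agent.S59.H240

open WeierstrassCurve WeierstrassCurve.Affine
open scoped WeierstrassCurve.Affine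
open Fermat.Agent.S59.H127

/-- **`CurveRep.unip` over `ℤ_p`**, unconditionally for semistable `W`. -/
theorem tate_isUnipotentOnInertiaAt_of_semistable {p : ℕ} [hp : Fact p.Prime]
    (W : WeierstrassCurve ℤ) (hΔ : W.Δ ≠ 0) (hss : W.IsSemistableModel)
    [hE : ((WQ W)⁄(AlgebraicClosure ℚ)).IsElliptic] (cb : CompatBasis (Pts W) p 2)
    (ℓ : ℕ) (hℓ : ℓ.Prime) (hbad : ¬ W.IsGoodPrimeFor ℓ) (hℓp : ℓ ≠ p) :
    (tateGaloisRep (WQ W) cb).IsUnipotentOnInertiaAt ℓ :=
  isUnipotentOnInertiaAt_of_input W cb (unipInput_of_semistable p hp.out W hΔ hss) ℓ hℓ hbad hℓp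

end Fermat.Agent.S59.H240
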